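import Fermat.Agent.UnitCohomology.Ambiguous
import Mathlib.RingTheory.ClassGroup.ExtendedHom

/-!
# The capitulation kernel

The classes of `K` becoming principal in `L` embed in `H¹` of the units, onto it if no prime
ramifies; so they are killed by the degree.
-/

set_option autoImplicit false
set_option linter.unusedSectionVars false
set_option linter.style.haveILetI false

noncomputable section

open NumberField IsDedekindDomain
open scoped Pointwise nonZeroDivisors

namespace FA.UnitCoh

open FA.ArtinRec FA.AmbClass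

attribute [local instance] Units.mulDistribMulActionRight

variable {K L : Type} [Field K] [NumberField K] [Field L] [NumberField L] [Algebra K L]
  [IsGalois K L]

/-- The order of an extended ideal. -/
theorem ordI_map (Q : HeightOneSpectrum (𝓞 L)) {I : Ideal (𝓞 K)} (hI : I ≠ ⊥) :
    ordI Q (I.map (algebraMap (𝓞 K) (𝓞 L))) = eIdx K Q * ordI (belowP K Q) I := by
  haveI : Q.asIdeal.LiesOver (belowP K Q).asIdeal := ⟨rfl⟩
  rw [ordI, ordI, eIdx]
  refine multiplicity_eq_of_emultiplicity_eq_some ?_
  rw [Ideal.IsDedekindDomain.emultiplicity_map_eq_ramificationIdx'_mul hI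
      (belowP K Q).irreducible Q.irreducible Q.ne_bot,
    (FiniteMultiplicity.of_prime_left (belowP K Q).prime hI).emultiplicity_eq_multiplicity]
  push_cast
  rfl

theorem extDiv_divI (I : (Ideal (𝓞 K))⁰) :
    extDiv K L (divI I) = divI (ClassGroup.extendedIdeal (𝓞 K) (𝓞 L) I) :=
  Multiplicative.toAdd.injective (Finsupp.ext fun Q => by
    show (eBase L (belowP K Q) : ℤ) * (ordI (belowP K Q) I.1 : ℤ) =
      (ordI Q (I.1.map (algebraMap (𝓞 K) (𝓞 L))) : ℤ)
    rw [ordI_map Q (nonZeroDivisors.coe_ne_zero I), eIdx_eq_eBase, Nat.cast_mul])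

/-- **The extension of classes.** -/
theorem cls_extDiv (d : Dvs K) :
    cls (extDiv K L d) = ClassGroup.extendedHom (𝓞 K) (𝓞 L) (cls d) := by
  obtain ⟨I, J, rfl⟩ := exists_divI_div d
  rw [map_div, map_div, map_div, map_div, extDiv_divI, extDiv_divI, cls_divI, cls_divI, cls_divI,
    cls_divI, ClassGroup.extendedHom_mk0, ClassGroup.extendedHom_mk0]

variable (K L) in
/-- The classes becoming principal. -/
abbrev capKer : Subgroup (ClassGroup (𝓞 K)) := (ClassGroup.extendedHom (𝓞 K) (𝓞 L)).ker

theorem exists_gen (c : capKer K L) :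
    ∃ (d : Dvs K) (x : fixU K L), cls d = c.1 ∧ ordHom x.1 = extDiv K L d := by
  obtain ⟨d, hd⟩ := surjective_cls c.1
  obtain ⟨x, hx⟩ : extDiv K L d ∈ (ordHom (F := L)).range := by
    rw [← ker_cls, MonoidHom.mem_ker, cls_extDiv, hd]
    exact c.2
  exact ⟨d, ⟨x, show ordHom x ∈ fixedDvs K L from hx ▸ extDiv_mem_fixedDvs d⟩, hd, hx⟩

/-- **Equal classes give equal cohomology classes and conversely.** -/
theorem delta_eq_iff {d d' : Dvs K} {x x' : fixU K L} (hx : ordHom x.1 = extDiv K L d)
    (hx' : ordHom x'.1 = extDiv K L d') : delta x = delta x' ↔ cls d = cls d' := by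
  rw [← div_eq_one, ← map_div, ← MonoidHom.mem_ker, ker_delta, Subgroup.mem_subgroupOf,
    ← div_eq_one (a := cls d), ← map_div, ← MonoidHom.mem_ker, ker_cls]
  rw [← Subgroup.comap_map_eq, Subgroup.mem_comap, Subgroup.coe_div, map_div, hx, hx', ← map_div,
    show (baseU (K := K) (L := L)).range.map ordHom = baseDvs K L from rfl, baseDvs_eq]
  exact Subgroup.mem_map_iff_mem extDiv_injective

/-- The map of capitulating classes into the cohomology. -/
def capMap : capKer K L →* Multiplicative (UnitH1 K L) :=
  MonoidHom.mk' (fun c => delta (exists_gen c).choose_spec.choose) fun a b => by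
    obtain ⟨h1, h1'⟩ := (exists_gen a).choose_spec.choose_spec
    obtain ⟨h2, h2'⟩ := (exists_gen b).choose_spec.choose_spec
    obtain ⟨h3, h3'⟩ := (exists_gen (a * b)).choose_spec.choose_spec
    rw [← map_mul]
    refine (delta_eq_iff h3' (d' := (exists_gen a).choose * (exists_gen b).choose) ?_).2 ?_
    · rw [Subgroup.coe_mul, map_mul, map_mul, h1', h2']
    · rw [map_mul, h1, h2, h3]; rfl

theorem capMap_eq {c : capKer K L} {d : Dvs K} {x : fixU K L} (hd : cls d = c.1)
    (hx : ordHom x.1 = extDiv K L d) : capMap c = delta x := by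
  obtain ⟨h1, h1'⟩ := (exists_gen c).choose_spec.choose_spec
  exact (delta_eq_iff h1' hx).2 (h1.trans hd.symm)

/-- **The capitulation kernel embeds in `H¹` of the units.** -/
theorem capMap_injective : Function.Injective (capMap (K := K) (L := L)) := fun a b h => by
  obtain ⟨d, x, hd, hx⟩ := exists_gen a
  obtain ⟨d', x', hd', hx'⟩ := exists_gen b
  rw [capMap_eq hd hx, capMap_eq hd' hx', delta_eq_iff hx hx', hd, hd'] at h
  exact Subtype.ext h

/-- **Without ramification it is onto.** -/
theorem capMap_surjective (h : ∀ v : HeightOneSpectrum (𝓞 K), eBase L v = 1) :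
    Function.Surjective (capMap (K := K) (L := L)) := fun z => by
  obtain ⟨x, rfl⟩ := delta_surjective z
  obtain ⟨d, hd⟩ : ordHom x.1 ∈ (liftDiv K L).range := by rw [range_liftDiv]; exact x.2
  have hs : scaleDiv K L d = d := Multiplicative.toAdd.injective (Finsupp.ext fun v => by
    rw [toAdd_scaleDiv, h v, Nat.cast_one, one_mul])
  have hx : ordHom x.1 = extDiv K L d := by
    rw [extDiv, MonoidHom.comp_apply, hs, hd]
  refine ⟨⟨cls d, ?_⟩, capMap_eq rfl hx⟩
  rw [MonoidHom.mem_ker, ← cls_extDiv, ← hx, ← MonoidHom.mem_ker, ker_cls]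
  exact ⟨x.1, rfl⟩

theorem card_capKer_dvd : Nat.card (capKer K L) ∣ Nat.card (UnitH1 K L) := by
  rw [← Nat.card_congr (Multiplicative.toAdd (α := UnitH1 K L))]
  exact Subgroup.card_dvd_of_injective capMap capMap_injective

/-- **Capitulating classes are killed by the degree.** -/
theorem capKer_pow_finrank (c : ClassGroup (𝓞 K))
    (hc : ClassGroup.extendedHom (𝓞 K) (𝓞 L) c = 1) : c ^ Module.finrank K L = 1 := by
  have h : (⟨c, hc⟩ : capKer K L) ^ Module.finrank K L = 1 :=
    capMap_injective (by rw [map_pow, map_one, pow_finrank_eq_one])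
  exact congrArg Subtype.val h

end FA.UnitCoh
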