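import Fermat.Agent.UnitCohomology.Connecting

/-!
# Strongly ambiguous classes

The fixed divisors are the pullbacks of divisors of `K`; those of elements of `K` have index
`h_K ∏ e_v` in them, so the classes of fixed ideals times the order of `H¹` of the units number
`h_K ∏ e_v`.
-/

set_option autoImplicit false
set_option linter.unusedSectionVars false
set_option linter.style.haveILetI false

noncomputable section

open NumberField IsDedekindDomain
open scoped Pointwise nonZeroDivisors

namespace FA.UnitCoh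

open FA.ArtinRec FA.AmbClass

attribute [local instance] Units.mulDistribMulActionRight

variable {K L : Type} [Field K] [NumberField K] [Field L] [NumberField L] [Algebra K L]

variable (K L) in
/-- A divisor of `K` read at every prime above. -/
def liftDiv : Dvs K →* Dvs L :=
  MonoidHom.mk' (fun c => Multiplicative.ofAdd (Finsupp.ofSupportFinite
      (fun Q : HeightOneSpectrum (𝓞 L) => Multiplicative.toAdd c (belowP K Q))
      (((Multiplicative.toAdd c).hasFiniteSupport.biUnion fun v _ => finite_belowP v).subset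
        fun Q hQ => Set.mem_biUnion (x := belowP K Q) hQ rfl)))
    fun a b => Multiplicative.toAdd.injective (Finsupp.ext fun Q => by
      simp [Finsupp.ofSupportFinite_coe])

@[simp] theorem toAdd_liftDiv (c : Dvs K) (Q : HeightOneSpectrum (𝓞 L)) :
    Multiplicative.toAdd (liftDiv K L c) Q = Multiplicative.toAdd c (belowP K Q) := rfl

theorem liftDiv_injective : Function.Injective (liftDiv K L) := fun a b h => by
  refine Multiplicative.toAdd.injective (Finsupp.ext fun v => ?_)
  have h1 := DFunLike.congr_fun (congrArg Multiplicative.toAdd h) (abovePrime K L v)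
  rwa [toAdd_liftDiv, toAdd_liftDiv, belowP_abovePrime] at h1

variable [IsGalois K L]

/-- The Galois group is transitive over each prime. -/
theorem exists_galPrime_eq {Q Q' : HeightOneSpectrum (𝓞 L)} (h : belowP K Q = belowP K Q') :
    ∃ g : L ≃ₐ[K] L, galPrime g Q = Q' := by
  obtain ⟨g, hg⟩ := Algebra.IsInvariant.exists_smul_of_under_eq (𝓞 K) (𝓞 L) (L ≃ₐ[K] L)
    Q.asIdeal Q'.asIdeal (congrArg HeightOneSpectrum.asIdeal h)
  exact ⟨g, HeightOneSpectrum.ext hg.symm⟩

/-- **The fixed divisors are the pullbacks.** -/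
theorem range_liftDiv : (liftDiv K L).range = fixedDvs K L := by
  ext d
  constructor
  · rintro ⟨c, rfl⟩
    refine fun g => Multiplicative.toAdd.injective (Finsupp.ext fun Q => ?_)
    obtain ⟨P, rfl⟩ : ∃ P, galPrime g P = Q :=
      ⟨galPrime g⁻¹ Q, by rw [← galPrime_mul, mul_inv_cancel, galPrime_one]⟩
    rw [galDiv_apply, toAdd_liftDiv, toAdd_liftDiv, belowP_galPrime]
  · intro hd
    refine ⟨readDiv K L d, Multiplicative.toAdd.injective (Finsupp.ext fun Q => ?_)⟩
    rw [toAdd_liftDiv, toAdd_readDiv]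
    obtain ⟨g, hg⟩ := exists_galPrime_eq (belowP_abovePrime (L := L) (belowP K Q))
    have h1 := galDiv_apply g d (abovePrime K L (belowP K Q))
    rw [hd g, hg] at h1
    exact h1.symm

variable (K L) in
/-- The divisor of the extension of an ideal. -/
def extDiv : Dvs K →* Dvs L := (liftDiv K L).comp (scaleDiv K L)

theorem extDiv_injective : Function.Injective (extDiv K L) :=
  liftDiv_injective.comp scaleDiv_injective

theorem ordHom_baseU (a : Kˣ) : ordHom (baseU (L := L) a) = extDiv K L (ordHom a) :=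
  Multiplicative.toAdd.injective (Finsupp.ext fun Q => by
    show ord Q (baseU a) = (eBase L (belowP K Q) : ℤ) * ord (belowP K Q) a
    rw [ord_baseU, eIdx_eq_eBase])

theorem baseDvs_eq : baseDvs K L = (ordHom (F := K)).range.map (extDiv K L) := by
  rw [baseDvs, MonoidHom.map_range, MonoidHom.map_range]
  exact congrArg MonoidHom.range (MonoidHom.ext ordHom_baseU)

theorem extDiv_mem_fixedDvs (c : Dvs K) : extDiv K L c ∈ fixedDvs K L := by
  rw [← range_liftDiv]; exact ⟨_, rfl⟩

theorem baseDvs_le_fixedDvs : baseDvs K L ≤ fixedDvs K L := baseDvs_le.trans inf_le_right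

/-- **Divisors of elements of `K` among the fixed divisors.** -/
theorem relIndex_baseDvs_fixedDvs :
    (baseDvs K L).relIndex (fixedDvs K L) =
      classNumber K * ∏ᶠ v : HeightOneSpectrum (𝓞 K), eBase L v := by
  rw [baseDvs_eq, extDiv, ← Subgroup.map_map, ← range_liftDiv,
    MonoidHom.range_eq_map (liftDiv K L),
    Subgroup.relIndex_map_map_of_injective _ _ liftDiv_injective, Subgroup.relIndex_top_right,
    Subgroup.index_map_of_injective _ scaleDiv_injective, index_range_ordHom, index_range_scaleDiv]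

theorem finprod_eBase_pos : 0 < ∏ᶠ v : HeightOneSpectrum (𝓞 K), eBase L v := by
  rw [finprod_eq_prod_of_mulSupport_subset _ (s := (finite_eBase_ne_one K L).toFinset)
    fun v hv => Finset.mem_coe.2 (by simpa using hv)]
  exact Finset.prod_pos fun v _ => eBase_pos v

variable (K L) in
/-- The classes of fixed ideals. -/
def strongCls : Subgroup (ClassGroup (𝓞 L)) := (fixedDvs K L).map cls

theorem card_strongCls :
    Nat.card (strongCls K L) = (fixedPrincipal K L).relIndex (fixedDvs K L) := by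
  rw [strongCls, ← Subgroup.relIndex_ker, ker_cls, fixedPrincipal, Subgroup.inf_relIndex_right]

/-- **The formula for strongly ambiguous classes.** -/
theorem card_strongCls_mul :
    Nat.card (strongCls K L) * Nat.card (UnitH1 K L) =
      classNumber K * ∏ᶠ v : HeightOneSpectrum (𝓞 K), eBase L v := by
  rw [card_strongCls, ← relIndex_baseDvs_fixedPrincipal, mul_comm,
    Subgroup.relIndex_mul_relIndex _ _ _ baseDvs_le inf_le_right, relIndex_baseDvs_fixedDvs]

/-- `H¹` of the units is finite. -/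
theorem card_unitH1_pos : 0 < Nat.card (UnitH1 K L) := by
  refine pos_of_ne_zero fun h => ?_
  have h1 := card_strongCls_mul (K := K) (L := L)
  rw [h, mul_zero] at h1
  exact (mul_ne_zero (classNumber_ne_zero K) finprod_eBase_pos.ne') h1.symm

theorem finite_unitH1 : Finite (UnitH1 K L) := (Nat.card_pos_iff.1 card_unitH1_pos).2

theorem galDiv_divI (g : L ≃ₐ[K] L) (I : (Ideal (𝓞 L))⁰)
    (hI : (g • (I : Ideal (𝓞 L))) ∈ (Ideal (𝓞 L))⁰) :
    galDiv g (divI I) = divI ⟨g • (I : Ideal (𝓞 L)), hI⟩ := by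
  refine Multiplicative.toAdd.injective (Finsupp.ext fun Q => ?_)
  obtain ⟨P, rfl⟩ : ∃ P, galPrime g P = Q :=
    ⟨galPrime g⁻¹ Q, by rw [← galPrime_mul, mul_inv_cancel, galPrime_one]⟩
  rw [galDiv_apply, toAdd_divI, toAdd_divI]
  exact congrArg Nat.cast
    (multiplicity_map_eq (MulDistribMulAction.toMulEquiv (Ideal (𝓞 L)) g)).symm

theorem smul_mem_nonZeroDivisors (g : L ≃ₐ[K] L) (I : (Ideal (𝓞 L))⁰) :
    g • (I : Ideal (𝓞 L)) ∈ (Ideal (𝓞 L))⁰ :=
  mem_nonZeroDivisors_iff_ne_zero.2 fun h => nonZeroDivisors.coe_ne_zero I (by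
    rw [← inv_smul_smul g (I : Ideal (𝓞 L)), h]
    exact Ideal.map_bot)

/-- A divisor determines the ideal. -/
theorem divI_injective : Function.Injective (divI (F := L)) := fun I J h =>
  Subtype.ext (ideal_eq_of_ordI (nonZeroDivisors.coe_ne_zero I) (nonZeroDivisors.coe_ne_zero J)
    fun v => Int.natCast_inj.1 (DFunLike.congr_fun (congrArg Multiplicative.toAdd h) v))

theorem divI_mem_fixedDvs_iff (I : (Ideal (𝓞 L))⁰) :
    divI I ∈ fixedDvs K L ↔ ∀ g : L ≃ₐ[K] L, g • (I : Ideal (𝓞 L)) = I := by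
  refine forall_congr' fun g => ?_
  rw [galDiv_divI g I (smul_mem_nonZeroDivisors g I)]
  exact ⟨fun h => congrArg Subtype.val (divI_injective h),
    fun h => congrArg divI (Subtype.ext h)⟩

/-- The classes of fixed ideals are those of fixed integral ideals. -/
theorem mem_strongCls_iff (c : ClassGroup (𝓞 L)) :
    c ∈ strongCls K L ↔
      ∃ I : (Ideal (𝓞 L))⁰, ClassGroup.mk0 I = c ∧
        ∀ g : L ≃ₐ[K] L, g • (I : Ideal (𝓞 L)) = I := by
  constructor
  · rintro ⟨d, hd, rfl⟩
    obtain ⟨c₀, rfl⟩ : d ∈ (liftDiv K L).range := by rw [range_liftDiv]; exact hd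
    obtain ⟨I, J, rfl⟩ := exists_divI_div c₀
    have key : ∀ I₀ : (Ideal (𝓞 K))⁰, ∃ M : (Ideal (𝓞 L))⁰,
        divI M = liftDiv K L (divI I₀) ∧ ∀ g : L ≃ₐ[K] L, g • (M : Ideal (𝓞 L)) = M := fun I₀ => by
      obtain ⟨M, hM, h⟩ := exists_ideal_ordI (fun Q : HeightOneSpectrum (𝓞 L) =>
          ordI (belowP K Q) (I₀ : Ideal (𝓞 K)))
        (((finite_ordI_ne_zero (nonZeroDivisors.coe_ne_zero I₀)).biUnion fun v _ =>
          finite_belowP v).subset fun Q hQ => Set.mem_biUnion (x := belowP K Q) hQ rfl)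
      have hM' : divI ⟨M, mem_nonZeroDivisors_iff_ne_zero.2 hM⟩ = liftDiv K L (divI I₀) :=
        Multiplicative.toAdd.injective (Finsupp.ext fun Q => by
          rw [toAdd_divI, toAdd_liftDiv, toAdd_divI, h])
      refine ⟨_, hM', (divI_mem_fixedDvs_iff _).1 ?_⟩
      rw [hM', ← range_liftDiv]
      exact ⟨_, rfl⟩
    obtain ⟨M, hM, hMf⟩ := key I
    obtain ⟨N, hN, hNf⟩ := key J
    obtain ⟨k, hk⟩ := exists_pow_eq_inv (ClassGroup.mk0 N)
    refine ⟨M * N ^ k, ?_, fun g => ?_⟩
    · rw [map_div, map_div, ← hM, ← hN, cls_divI, cls_divI, map_mul, map_pow, hk, ← div_eq_mul_inv]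
    · rw [Submonoid.coe_mul, SubmonoidClass.coe_pow, smul_mul', smul_pow', hMf g, hNf g]
  · rintro ⟨I, rfl, hI⟩
    exact ⟨divI I, (divI_mem_fixedDvs_iff I).2 hI, cls_divI I⟩
where
  exists_pow_eq_inv (c : ClassGroup (𝓞 L)) : ∃ k : ℕ, c ^ k = c⁻¹ :=
    ⟨orderOf c - 1, eq_inv_of_mul_eq_one_left (by
      rw [← pow_succ, Nat.sub_add_cancel (orderOf_pos c), pow_orderOf_eq_one])⟩

end FA.UnitCoh
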