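import Fermat.Agent.IntValued.Galois
import Fermat.Agent.UnitCohomology.Ambiguous

/-!
# Pólya groups of Galois number fields (Zantema)

Over the rationals the fixed divisors are generated by the fibres over the primes, so the classes of
fixed ideals are the Pólya group; its order times that of `H¹` of the units is the product of the
ramification indices.
-/

set_option autoImplicit false
set_option linter.unusedSectionVars false
set_option linter.style.haveILetI false

noncomputable section

open NumberField IsDedekindDomain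
open scoped Pointwise nonZeroDivisors Classical

namespace FA.UnitCoh

open FA.ArtinRec FA.AmbClass FA.IntValued

attribute [local instance] Units.mulDistribMulActionRight

variable {L : Type} [Field L] [NumberField L] [IsGalois ℚ L]

theorem liftDiv_single (v : HeightOneSpectrum (𝓞 ℚ)) :
    liftDiv ℚ L (Multiplicative.ofAdd (Finsupp.single v (1 : ℤ))) = fibreDiv v :=
  Multiplicative.toAdd.injective (Finsupp.ext fun Q => by
    rw [toAdd_liftDiv, toAdd_fibreDiv, toAdd_ofAdd, Finsupp.single_apply]
    exact if_congr eq_comm rfl rfl)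

/-- **The fixed divisors are generated by the fibres.** -/
theorem fixedDvs_eq_closure :
    fixedDvs ℚ L =
      Subgroup.closure (Set.range (fibreDiv : HeightOneSpectrum (𝓞 ℚ) → Dvs L)) := by
  refine le_antisymm ?_ ((Subgroup.closure_le _).2 ?_)
  · rw [← range_liftDiv]
    rintro _ ⟨c, rfl⟩
    rw [← ofAdd_toAdd c]
    induction Multiplicative.toAdd c using Finsupp.induction_linear with
    | zero => simp
    | add a b ha hb => rw [ofAdd_add, map_mul]; exact mul_mem ha hb
    | single v k =>
      have hk : Finsupp.single v k = k • Finsupp.single v (1 : ℤ) := by simp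
      rw [hk, ofAdd_zsmul, map_zpow, liftDiv_single]
      exact zpow_mem (Subgroup.subset_closure (Set.mem_range_self v)) k
  · rintro _ ⟨v, rfl⟩
    show fibreDiv v ∈ fixedDvs ℚ L
    rw [← range_liftDiv]
    exact ⟨_, liftDiv_single v⟩

theorem strongCls_eq_closure :
    strongCls ℚ L =
      Subgroup.closure (Set.range fun v : HeightOneSpectrum (𝓞 ℚ) =>
        cls (fibreDiv (L := L) v)) := by
  rw [strongCls, fixedDvs_eq_closure, MonoidHom.map_closure, ← Set.range_comp]
  rfl

/-- **Zantema's formula.** -/
theorem card_strongCls_rat :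
    Nat.card (strongCls ℚ L) * Nat.card (UnitH1 ℚ L) =
      ∏ᶠ v : HeightOneSpectrum (𝓞 ℚ), eBase L v := by
  rw [card_strongCls_mul, Rat.classNumber_eq, one_mul]

/-- **Pólya fields**: the cohomology is as large as possible. -/
theorem hasRegularBasis_iff_card :
    HasRegularBasis L ↔
      Nat.card (UnitH1 ℚ L) = ∏ᶠ v : HeightOneSpectrum (𝓞 ℚ), eBase L v := by
  rw [hasRegularBasis_galois, ← card_strongCls_rat]
  have h : (∀ v, fibreDiv v ∈ (ordHom (F := L)).range) ↔ Nat.card (strongCls ℚ L) = 1 := by
    rw [Subgroup.card_eq_one, eq_bot_iff, strongCls_eq_closure, Subgroup.closure_le,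
      Set.range_subset_iff]
    refine forall_congr' fun v => ?_
    rw [← ker_cls]
    rfl
  rw [h]
  exact ⟨fun h1 => by rw [h1, one_mul],
    fun h1 => (mul_eq_right₀ card_unitH1_pos.ne').1 h1.symm⟩

/-- A Pólya field other than `ℚ` has units with nontrivial cohomology. -/
theorem card_unitH1_ne_one (h : HasRegularBasis L) (hL : 1 < Module.finrank ℚ L) :
    Nat.card (UnitH1 ℚ L) ≠ 1 := by
  intro h1
  rw [hasRegularBasis_iff_card.1 h] at h1
  obtain ⟨p, hp, hpd⟩ : ∃ p : ℕ, p.Prime ∧ (p : ℤ) ∣ discr L := by
    have h2 : 1 < (discr L).natAbs := by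
      have h3 := NumberField.abs_discr_gt_two hL
      rw [Int.abs_eq_natAbs] at h3
      omega
    obtain ⟨p, hp, hpd⟩ := Nat.exists_prime_and_dvd h2.ne'
    exact ⟨p, hp, Int.natCast_dvd.2 hpd⟩
  obtain ⟨v, hv⟩ : ∃ v : HeightOneSpectrum (𝓞 ℚ), Rat.HeightOneSpectrum.natGenerator v = p :=
    ⟨Rat.HeightOneSpectrum.primesEquiv.symm ⟨p, hp⟩, congrArg Subtype.val
      (Rat.HeightOneSpectrum.primesEquiv.apply_symm_apply ⟨p, hp⟩)⟩
  have hne : eBase L v ≠ 1 := (eBase_ne_one_iff v).2 (hv ▸ hpd)
  refine hne (Nat.dvd_one.1 ?_)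
  rw [finprod_eq_prod_of_mulSupport_subset (eBase L)
    (s := (finite_eBase_ne_one ℚ L).toFinset) fun w hw => Finset.mem_coe.2
      (by simpa using hw)] at h1
  rw [← h1]
  exact Finset.dvd_prod_of_mem _ (by simpa using hne)

end FA.UnitCoh
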