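import Fermat.Agent.AmbiguousClass.Applications
import Mathlib.RepresentationTheory.Homological.GroupCohomology.Hilbert90

/-!
# The connecting map to the cohomology of units

For a Galois extension `L/K` of number fields the elements generating an ideal fixed by the Galois
group map onto `H¹(G, (𝓞 L)ˣ)` by sending `x` to the class of `g ↦ g x / x`; the kernel consists of
the products of elements of `K` and units. Surjectivity is Noether's Hilbert 90.
-/

set_option autoImplicit false
set_option linter.unusedSectionVars false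
set_option linter.style.haveILetI false

noncomputable section

open NumberField IsDedekindDomain
open scoped Pointwise nonZeroDivisors

namespace FA.UnitCoh

open FA.ArtinRec FA.AmbClass

attribute [local instance] Units.mulDistribMulActionRight

variable {K L : Type} [Field K] [NumberField K] [Field L] [NumberField L] [Algebra K L]

variable (K L) in
/-- The units of `L` as a module over the Galois group. -/
abbrev unitRep : Rep ℤ (L ≃ₐ[K] L) := Rep.ofMulDistribMulAction (L ≃ₐ[K] L) (𝓞 L)ˣ

variable (K L) in
/-- The first cohomology of the units. -/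
abbrev UnitH1 : Type := groupCohomology.H1 (unitRep K L)

theorem intUnits_smul (g : L ≃ₐ[K] L) (u : (𝓞 L)ˣ) : intUnits (g • u) = galU g (intUnits u) :=
  Units.ext rfl

theorem galU_mul (g h : L ≃ₐ[K] L) (x : Lˣ) : galU (g * h) x = galU g (galU h x) := Units.ext rfl

variable (K L) in
/-- The divisors fixed by the Galois group. -/
def fixedDvs : Subgroup (Dvs L) where
  carrier := {d | ∀ g : L ≃ₐ[K] L, galDiv g d = d}
  one_mem' g := map_one _
  mul_mem' ha hb g := by rw [map_mul, ha g, hb g]
  inv_mem' ha g := by rw [map_inv, ha g]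

variable (K L) in
/-- The elements generating a fixed ideal. -/
def fixU : Subgroup Lˣ := (fixedDvs K L).comap ordHom

theorem mem_fixU {x : Lˣ} :
    x ∈ fixU K L ↔ ∀ g : L ≃ₐ[K] L, ∃ u, intUnits u = galU g x / x := by
  show (∀ g : L ≃ₐ[K] L, galDiv g (ordHom x) = ordHom x) ↔ _
  refine forall_congr' fun g => ?_
  rw [← galDiv_ordHom, ← div_eq_one, ← map_div]
  constructor
  · intro h
    exact exists_intUnits_eq fun v => DFunLike.congr_fun (congrArg Multiplicative.toAdd h) v
  · rintro ⟨u, hu⟩
    exact Multiplicative.toAdd.injective (Finsupp.ext fun v => by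
      rw [toAdd_ordHom, ← hu, ord_intUnits]; rfl)

/-- The unit by which `g` moves an element. -/
def cocy (x : fixU K L) (g : L ≃ₐ[K] L) : (𝓞 L)ˣ := (mem_fixU.1 x.2 g).choose

theorem intUnits_cocy (x : fixU K L) (g : L ≃ₐ[K] L) :
    intUnits (cocy x g) = galU g x.1 / x.1 :=
  (mem_fixU.1 x.2 g).choose_spec

theorem isMulCocycle_cocy (x : fixU K L) : groupCohomology.IsMulCocycle₁ (cocy x) := fun g h =>
  intUnits_injective (by
    rw [map_mul, intUnits_smul, intUnits_cocy, intUnits_cocy, intUnits_cocy, map_div, galU_mul,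
      div_mul_div_cancel])

theorem cocy_mul (x y : fixU K L) : cocy (x * y) = cocy x * cocy y := funext fun g =>
  intUnits_injective (by
    rw [Pi.mul_apply, map_mul, intUnits_cocy, intUnits_cocy, intUnits_cocy, Subgroup.coe_mul,
      map_mul, mul_div_mul_comm])

/-- The class of the cocycle of an element. -/
def delta : fixU K L →* Multiplicative (UnitH1 K L) :=
  MonoidHom.mk' (fun x => Multiplicative.ofAdd
      (groupCohomology.H1π (unitRep K L)
        (groupCohomology.cocyclesOfIsMulCocycle₁ (isMulCocycle_cocy x))))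
    fun x y => by
      rw [← ofAdd_add, ← map_add]
      refine congrArg (fun z => Multiplicative.ofAdd (groupCohomology.H1π (unitRep K L) z))
        (Subtype.ext (funext fun g => ?_))
      show Additive.ofMul (cocy (x * y) g) = Additive.ofMul (cocy x g) + Additive.ofMul (cocy y g)
      rw [cocy_mul]
      rfl

theorem delta_eq {x : fixU K L} {u : (L ≃ₐ[K] L) → (𝓞 L)ˣ}
    (h : ∀ g, intUnits (u g) = galU g x.1 / x.1) :
    ∃ hu : groupCohomology.IsMulCocycle₁ u, delta x = Multiplicative.ofAdd
      (groupCohomology.H1π (unitRep K L) (groupCohomology.cocyclesOfIsMulCocycle₁ hu)) := by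
  obtain rfl : u = cocy x :=
    funext fun g => intUnits_injective ((h g).trans (intUnits_cocy x g).symm)
  exact ⟨isMulCocycle_cocy x, rfl⟩

variable [IsGalois K L]

/-- Fixed elements come from `K`. -/
theorem exists_baseU_of_fixed {x : Lˣ} (h : ∀ g : L ≃ₐ[K] L, galU g x = x) :
    ∃ a : Kˣ, baseU a = x := by
  obtain ⟨a, ha⟩ := (IsGalois.mem_range_algebraMap_iff_fixed (x : L)).2 fun g =>
    congrArg Units.val (h g)
  exact ⟨Units.mk0 a fun h0 => x.ne_zero (by rw [← ha, h0, map_zero]), Units.ext ha⟩

theorem sup_le_fixU : (baseU (K := K) (L := L)).range ⊔ (ordHom (F := L)).ker ≤ fixU K L := by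
  refine sup_le ?_ fun x hx => ?_
  · rintro _ ⟨a, rfl⟩
    show ∀ g : L ≃ₐ[K] L, galDiv g (ordHom (baseU a)) = ordHom (baseU a)
    exact fun g => by rw [← galDiv_ordHom, galU_baseU]
  · show ∀ g : L ≃ₐ[K] L, galDiv g (ordHom x) = ordHom x
    exact fun g => by rw [show ordHom x = 1 from hx, map_one]

/-- **Noether's Hilbert 90 gives surjectivity.** -/
theorem delta_surjective : Function.Surjective (delta (K := K) (L := L)) := by
  intro z
  obtain ⟨z, rfl⟩ := Multiplicative.ofAdd.surjective z
  induction z using groupCohomology.H1_induction_on with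
  | _ f =>
    let u : (L ≃ₐ[K] L) → (𝓞 L)ˣ := fun g => Additive.toMul (show Additive (𝓞 L)ˣ from f g)
    have hu : groupCohomology.IsMulCocycle₁ u :=
      groupCohomology.isMulCocycle₁_of_mem_cocycles₁ (M := (𝓞 L)ˣ) (fun g => u g) f.2
    obtain ⟨β, hβ⟩ := groupCohomology.isMulCoboundary₁_of_isMulCocycle₁_of_aut_to_units
      (fun g => intUnits (u g)) fun g h => by
        show intUnits (u (g * h)) = galU g (intUnits (u h)) * intUnits (u g)
        rw [hu g h, map_mul, intUnits_smul]
    have hg : ∀ g, intUnits (u g) = galU g β / β := fun g => (hβ g).symm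
    refine ⟨⟨β, mem_fixU.2 fun g => ⟨u g, hg g⟩⟩, ?_⟩
    obtain ⟨_, he⟩ := delta_eq (x := ⟨β, mem_fixU.2 fun g => ⟨u g, hg g⟩⟩) hg
    rw [he]
    rfl

/-- **The kernel**: elements of `K` times units. -/
theorem ker_delta :
    (delta (K := K) (L := L)).ker =
      ((baseU (K := K) (L := L)).range ⊔ (ordHom (F := L)).ker).subgroupOf (fixU K L) := by
  ext x
  rw [MonoidHom.mem_ker, Subgroup.mem_subgroupOf, Subgroup.mem_sup]
  show Multiplicative.ofAdd _ = 1 ↔ _
  rw [ofAdd_eq_one, groupCohomology.H1π_eq_zero_iff]
  constructor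
  · intro h
    obtain ⟨a₀, ha⟩ := h
    let a : Additive (𝓞 L)ˣ := a₀
    have hfix : ∀ g : L ≃ₐ[K] L,
        galU g (x.1 / intUnits (Additive.toMul a)) = x.1 / intUnits (Additive.toMul a) :=
      fun g => by
      have h1 : g • Additive.toMul a / Additive.toMul a = cocy x g :=
        congrArg Additive.toMul (congrFun ha g)
      have h2 := congrArg intUnits h1
      rw [map_div, intUnits_smul, intUnits_cocy] at h2
      rw [map_div, div_eq_div_iff_div_eq_div]
      exact h2.symm
    obtain ⟨b, hb⟩ := exists_baseU_of_fixed hfix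
    refine ⟨baseU b, ⟨b, rfl⟩, intUnits (Additive.toMul a), ?_, by rw [hb, div_mul_cancel]⟩
    exact Multiplicative.toAdd.injective (Finsupp.ext fun v => ord_intUnits _ v)
  · rintro ⟨_, ⟨b, rfl⟩, y, hy, hxy⟩
    obtain ⟨a, rfl⟩ := exists_intUnits_eq fun v =>
      DFunLike.congr_fun (congrArg Multiplicative.toAdd (show ordHom y = 1 from hy)) v
    refine ⟨Additive.ofMul a, funext fun g => ?_⟩
    show Additive.ofMul (g • a / a) = Additive.ofMul (cocy x g)
    refine congrArg Additive.ofMul (intUnits_injective ?_)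
    rw [map_div, intUnits_smul, intUnits_cocy, ← hxy, map_mul, galU_baseU, mul_div_mul_left_eq_div]

theorem card_unitH1 :
    Nat.card (UnitH1 K L) =
      ((baseU (K := K) (L := L)).range ⊔ (ordHom (F := L)).ker).relIndex (fixU K L) := by
  rw [Subgroup.relIndex, ← ker_delta, Subgroup.index_ker,
    MonoidHom.range_eq_top.2 delta_surjective, Nat.card_congr Subgroup.topEquiv.toEquiv,
    Nat.card_congr Multiplicative.toAdd]

variable (K L) in
/-- The fixed principal divisors. -/
def fixedPrincipal : Subgroup (Dvs L) := (ordHom (F := L)).range ⊓ fixedDvs K L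

variable (K L) in
/-- The divisors of elements of `K`. -/
def baseDvs : Subgroup (Dvs L) := (baseU (K := K) (L := L)).range.map ordHom

theorem baseDvs_le : baseDvs K L ≤ fixedPrincipal K L := by
  rintro _ ⟨x, hx, rfl⟩
  exact ⟨⟨x, rfl⟩, sup_le_fixU (Subgroup.mem_sup_left hx)⟩

/-- **Fixed principal ideals modulo those from `K` number as many as `H¹` of the units.** -/
theorem relIndex_baseDvs_fixedPrincipal :
    (baseDvs K L).relIndex (fixedPrincipal K L) = Nat.card (UnitH1 K L) := by
  rw [card_unitH1, fixedPrincipal, ← Subgroup.map_comap_eq, baseDvs, Subgroup.relIndex_map_map]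
  congr 1
  exact sup_eq_left.2 (le_sup_right.trans sup_le_fixU)

/-- The cohomology is killed by the degree. -/
theorem pow_finrank_eq_one (z : Multiplicative (UnitH1 K L)) : z ^ Module.finrank K L = 1 := by
  obtain ⟨x, rfl⟩ := delta_surjective z
  rw [← map_pow, ← MonoidHom.mem_ker, ker_delta, Subgroup.mem_subgroupOf, Subgroup.mem_sup]
  set N := Units.map (Algebra.norm K : L →* K) x.1
  refine ⟨baseU N, ⟨N, rfl⟩, (x.1 ^ Module.finrank K L) / baseU N, ?_, ?_⟩
  · have hN : baseU (L := L) N = ∏ g : L ≃ₐ[K] L, galU g x.1 := Units.ext (by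
      rw [Units.coe_prod]
      exact Algebra.norm_eq_prod_automorphisms K (x.1 : L))
    have hn : x.1 ^ Module.finrank K L = ∏ _g : L ≃ₐ[K] L, x.1 := by
      rw [Finset.prod_const, Finset.card_univ, ← Nat.card_eq_fintype_card,
        IsGalois.card_aut_eq_finrank]
    rw [MonoidHom.mem_ker, hN, hn, map_div, map_prod, map_prod, div_eq_one]
    refine Finset.prod_congr rfl fun g _ => ?_
    rw [galDiv_ordHom, show galDiv g (ordHom x.1) = ordHom x.1 from x.2 g]
  · rw [SubmonoidClass.coe_pow, mul_div_cancel]

end FA.UnitCoh
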